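/-
Frey curve: the integral model `FreyPackage.freyCurveInt`.

For a Frey package `P` put `A = P.a ^ P.p`, `B = P.b ^ P.p`, `C = P.c ^ P.p = A + B`.
* `four_mul_a₂`, `sixteen_mul_a₄`: the two integer divisions in `freyCurveInt` are exact;
* `map_freyCurveInt`: `freyCurveInt` base-changes to `freyCurve`, hence is an integral model of it;
* `Δ_mul`, `c₄_eq`: `256 Δ = (A B C)²`, `c₄ = A² + A B + B²`;
* `isSemistableModel`, `Δ_ne_zero`, `prime_dvd_Δ_iff`: semistability and the bad primes (`q ∣ Δ ↔ q ∣ abc`);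
* `isConductorLevel_conductorLevel`: the radical of `Δ` is a conductor level of `P`.
-/
import Mathlib
import Fermat.Prelude.Def_FLTPrelim_FreyPackage
import Fermat.Prelude.Def_FLTPrelim_Modularity
import Fermat.Prelude.Def_FreyPackage_IsConductorLevel
import Fermat.Prelude.Def_WeierstrassCurve_ConductorLevel

set_option autoImplicit false

namespace Fermat.Agent.Frey.IntModel

open WeierstrassCurve

variable (P : FreyPackage)

/-! ### Elementary congruences -/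

theorem two_dvd_b : (2 : ℤ) ∣ P.b := (ZMod.intCast_zmod_eq_zero_iff_dvd P.b 2).1 P.hb2

theorem two_le_p : 2 ≤ P.p := le_trans (by norm_num) P.hp5

theorem thirtytwo_dvd_b_pow : (32 : ℤ) ∣ P.b ^ P.p := by
  obtain ⟨k, hk⟩ := two_dvd_b P
  have h5 : (P.b) ^ 5 ∣ P.b ^ P.p := pow_dvd_pow _ P.hp5
  refine dvd_trans ?_ h5
  rw [hk]
  exact ⟨k ^ 5, by ring⟩

theorem four_dvd_b_pow : (4 : ℤ) ∣ P.b ^ P.p :=
  dvd_trans (by norm_num) (thirtytwo_dvd_b_pow P)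

theorem sixteen_dvd_b_pow : (16 : ℤ) ∣ P.b ^ P.p :=
  dvd_trans (by norm_num) (thirtytwo_dvd_b_pow P)

theorem a_pow_zmod4 : ((P.a ^ P.p : ℤ) : ZMod 4) = 3 := by
  have h3 : (3 : ZMod 4) = -1 := by decide
  rw [Int.cast_pow, P.ha4, h3, P.hp_odd.neg_one_pow]

theorem four_dvd_a₂_num : (4 : ℤ) ∣ P.b ^ P.p - 1 - P.a ^ P.p := by
  apply (ZMod.intCast_zmod_eq_zero_iff_dvd _ 4).1
  have hb : ((P.b ^ P.p : ℤ) : ZMod 4) = 0 :=
    (ZMod.intCast_zmod_eq_zero_iff_dvd _ 4).2 (four_dvd_b_pow P)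
  rw [Int.cast_sub, Int.cast_sub, hb, a_pow_zmod4 P]
  decide

theorem sixteen_dvd_a₄_num : (16 : ℤ) ∣ -(P.a ^ P.p) * (P.b ^ P.p) :=
  Dvd.dvd.mul_left (sixteen_dvd_b_pow P) _

theorem a_odd : ¬ (2 : ℤ) ∣ P.a := by
  intro h
  have h1 : (2 : ℤ) ∣ gcd P.a P.b := dvd_gcd h (two_dvd_b P)
  rw [P.hgcdab] at h1
  exact Int.prime_two.not_dvd_one h1

/-! ### The coefficients of the integral model -/

@[simp] theorem a₁_eq : P.freyCurveInt.a₁ = 1 := rfl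
@[simp] theorem a₃_eq : P.freyCurveInt.a₃ = 0 := rfl
@[simp] theorem a₆_eq : P.freyCurveInt.a₆ = 0 := rfl

theorem four_mul_a₂ : 4 * P.freyCurveInt.a₂ = P.b ^ P.p - 1 - P.a ^ P.p :=
  Int.mul_ediv_cancel' (four_dvd_a₂_num P)

theorem sixteen_mul_a₄ : 16 * P.freyCurveInt.a₄ = -(P.a ^ P.p) * (P.b ^ P.p) :=
  Int.mul_ediv_cancel' (sixteen_dvd_a₄_num P)

theorem b₂_eq : P.freyCurveInt.b₂ = P.b ^ P.p - P.a ^ P.p := by
  have h := four_mul_a₂ P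
  simp only [WeierstrassCurve.b₂, a₁_eq]
  linarith

theorem eight_mul_b₄ : 8 * P.freyCurveInt.b₄ = -(P.a ^ P.p) * (P.b ^ P.p) := by
  have h := sixteen_mul_a₄ P
  simp only [WeierstrassCurve.b₄, a₁_eq, a₃_eq]
  linarith

theorem b₆_eq : P.freyCurveInt.b₆ = 0 := by
  simp [WeierstrassCurve.b₆]

theorem b₈_eq : P.freyCurveInt.b₈ = -(P.freyCurveInt.a₄) ^ 2 := by
  simp [WeierstrassCurve.b₈]

/-- `c₄ = A² + A B + B²`. -/
theorem c₄_eq : P.freyCurveInt.c₄ =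
    (P.a ^ P.p) ^ 2 + P.a ^ P.p * P.b ^ P.p + (P.b ^ P.p) ^ 2 := by
  have h2 := b₂_eq P
  have h4 := eight_mul_b₄ P
  simp only [WeierstrassCurve.c₄]
  rw [h2]
  linear_combination (-3 : ℤ) * h4

/-- `256 Δ = (A B C)²`. -/
theorem Δ_mul : P.freyCurveInt.Δ * 256 = (P.a ^ P.p * P.b ^ P.p * P.c ^ P.p) ^ 2 := by
  have h2 := b₂_eq P
  have h4 := eight_mul_b₄ P
  have h16 := sixteen_mul_a₄ P
  have hb4 : P.freyCurveInt.b₄ = 2 * P.freyCurveInt.a₄ := by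
    simp [WeierstrassCurve.b₄]
  simp only [WeierstrassCurve.Δ, b₆_eq, b₈_eq, h2, hb4]
  rw [← P.hFLT]
  set A := P.a ^ P.p
  set B := P.b ^ P.p
  set x := P.freyCurveInt.a₄
  have hx : 16 * x = -(A * B) := by rw [h16]; ring
  have : (A * B * (A + B)) ^ 2 = (16 * x) ^ 2 * ((B - A) ^ 2 - 4 * (16 * x)) := by
    rw [hx]; ring
  rw [this]; ring

theorem Δ_mul' : P.freyCurveInt.Δ * 256 = (P.a * P.b * P.c) ^ (2 * P.p) := by
  rw [Δ_mul]; ring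

theorem Δ_ne_zero : P.freyCurveInt.Δ ≠ 0 := by
  intro h
  have := Δ_mul' P
  rw [h, zero_mul] at this
  exact pow_ne_zero _ P.habc0 this.symm

/-! ### Base change to `ℚ` -/

theorem map_freyCurveInt : P.freyCurveInt.map (Int.castRingHom ℚ) = P.freyCurve := by
  have h2 : ((P.freyCurveInt.a₂ : ℤ) : ℚ) = ((P.b : ℚ) ^ P.p - 1 - (P.a : ℚ) ^ P.p) / 4 := by
    have := four_mul_a₂ P
    have h : (4 : ℚ) * (P.freyCurveInt.a₂ : ℚ) = (P.b : ℚ) ^ P.p - 1 - (P.a : ℚ) ^ P.p := by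
      exact_mod_cast this
    rw [← h]; ring
  have h4 : ((P.freyCurveInt.a₄ : ℤ) : ℚ) = -((P.a : ℚ) ^ P.p) * ((P.b : ℚ) ^ P.p) / 16 := by
    have := sixteen_mul_a₄ P
    have h : (16 : ℚ) * (P.freyCurveInt.a₄ : ℚ) = -((P.a : ℚ) ^ P.p) * ((P.b : ℚ) ^ P.p) := by
      exact_mod_cast this
    rw [← h]; ring
  ext
  · simp [WeierstrassCurve.map, FreyPackage.freyCurve]
  · simpa [WeierstrassCurve.map, FreyPackage.freyCurve] using h2
  · simp [WeierstrassCurve.map, FreyPackage.freyCurve]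
  · simpa [WeierstrassCurve.map, FreyPackage.freyCurve] using h4
  · simp [WeierstrassCurve.map, FreyPackage.freyCurve]

theorem isIntegralModelOf : P.freyCurveInt.IsIntegralModelOf P.freyCurve :=
  ⟨1, by rw [one_smul, map_freyCurveInt]⟩

/-! ### Bad primes and semistability -/

theorem prime_int {q : ℕ} (hq : q.Prime) : Prime (q : ℤ) := Nat.prime_iff_prime_int.mp hq

theorem dvd_abc_of_dvd_Δ {q : ℕ} (hq : q.Prime) (h : (q : ℤ) ∣ P.freyCurveInt.Δ) :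
    (q : ℤ) ∣ P.a * P.b * P.c := by
  have h1 : (q : ℤ) ∣ (P.a * P.b * P.c) ^ (2 * P.p) := by
    rw [← Δ_mul']; exact Dvd.dvd.mul_right h _
  exact (prime_int hq).dvd_of_dvd_pow h1

theorem dvd_Δ_of_dvd_abc {q : ℕ} (hq : q.Prime) (h : (q : ℤ) ∣ P.a * P.b * P.c) :
    (q : ℤ) ∣ P.freyCurveInt.Δ := by
  by_cases hq2 : q = 2
  · subst hq2
    -- `2 ^ 10 ∣ B ^ 2`, so `4 ∣ Δ`
    obtain ⟨k, hk⟩ := thirtytwo_dvd_b_pow P
    have h1 := Δ_mul P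
    rw [hk] at h1
    have h2 : P.freyCurveInt.Δ = 4 * (P.a ^ P.p * k * P.c ^ P.p) ^ 2 := by
      have : P.freyCurveInt.Δ * 256 = (4 * (P.a ^ P.p * k * P.c ^ P.p) ^ 2) * 256 := by
        rw [h1]; ring
      exact mul_right_cancel₀ (by norm_num) this
    rw [h2]
    exact ⟨2 * (P.a ^ P.p * k * P.c ^ P.p) ^ 2, by push_cast; ring⟩
  · have h1 : (q : ℤ) ∣ P.freyCurveInt.Δ * 256 := by
      rw [Δ_mul']
      exact dvd_pow h (by have := P.hp0; omega)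
    rcases (prime_int hq).dvd_or_dvd h1 with h2 | h2
    · exact h2
    · exfalso
      have h256 : (256 : ℤ) = 2 ^ 8 := by norm_num
      rw [h256] at h2
      have h3 : (q : ℤ) ∣ 2 := (prime_int hq).dvd_of_dvd_pow h2
      have h4 : q ∣ 2 := by exact_mod_cast h3
      exact hq2 ((Nat.prime_dvd_prime_iff_eq hq Nat.prime_two).1 h4)

theorem prime_dvd_Δ_iff {q : ℕ} (hq : q.Prime) :
    (q : ℤ) ∣ P.freyCurveInt.Δ ↔ (q : ℤ) ∣ P.a * P.b * P.c :=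
  ⟨dvd_abc_of_dvd_Δ P hq, dvd_Δ_of_dvd_abc P hq⟩

theorem two_dvd_Δ : ((2 : ℕ) : ℤ) ∣ P.freyCurveInt.Δ :=
  dvd_Δ_of_dvd_abc P Nat.prime_two (by exact_mod_cast P.two_dvd_abc)

theorem not_dvd_of_gcd_eq_one {q : ℕ} (hq : q.Prime) {x y : ℤ} (h : gcd x y = 1)
    (hx : (q : ℤ) ∣ x) : ¬ (q : ℤ) ∣ y := by
  intro hy
  have h1 : (q : ℤ) ∣ gcd x y := dvd_gcd hx hy
  rw [h] at h1
  exact (prime_int hq).not_dvd_one h1

theorem dvd_pow_iff {q : ℕ} (hq : q.Prime) (x : ℤ) : (q : ℤ) ∣ x ^ P.p ↔ (q : ℤ) ∣ x :=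
  Prime.dvd_pow_iff_dvd (prime_int hq) P.hp0

theorem not_dvd_c₄_of_dvd_abc {q : ℕ} (hq : q.Prime) (h : (q : ℤ) ∣ P.a * P.b * P.c) :
    ¬ (q : ℤ) ∣ P.freyCurveInt.c₄ := by
  have hqp := prime_int hq
  rw [c₄_eq]
  intro h4
  rcases hqp.dvd_or_dvd h with hab | hc
  · rcases hqp.dvd_or_dvd hab with ha | hb
    · -- `q ∣ a`, so `q ∤ b`, but `q ∣ B²`
      have hA : (q : ℤ) ∣ P.a ^ P.p := (dvd_pow_iff P hq _).2 ha
      have hB2 : (q : ℤ) ∣ (P.b ^ P.p) ^ 2 := by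
        have h5 : (q : ℤ) ∣ (P.a ^ P.p) ^ 2 + P.a ^ P.p * P.b ^ P.p :=
          dvd_add (Dvd.dvd.pow hA two_ne_zero) (Dvd.dvd.mul_right hA _)
        exact (dvd_add_right h5).1 h4
      exact not_dvd_of_gcd_eq_one hq P.hgcdab ha
        ((dvd_pow_iff P hq _).1 (hqp.dvd_of_dvd_pow hB2))
    · have hB : (q : ℤ) ∣ P.b ^ P.p := (dvd_pow_iff P hq _).2 hb
      have hA2 : (q : ℤ) ∣ (P.a ^ P.p) ^ 2 := by
        have h5 : (q : ℤ) ∣ P.a ^ P.p * P.b ^ P.p + (P.b ^ P.p) ^ 2 :=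
          dvd_add (Dvd.dvd.mul_left hB _) (Dvd.dvd.pow hB two_ne_zero)
        rw [add_assoc] at h4
        exact (dvd_add_left h5).1 h4
      have hgba : gcd P.b P.a = 1 := by rw [gcd_comm]; exact P.hgcdab
      exact not_dvd_of_gcd_eq_one hq hgba hb
        ((dvd_pow_iff P hq _).1 (hqp.dvd_of_dvd_pow hA2))
  · -- `q ∣ c`: `c₄ = C² - A B`... use `A² + A B + B² = C (A + B) - A B`, so `q ∣ A B`
    have hC : (q : ℤ) ∣ P.c ^ P.p := (dvd_pow_iff P hq _).2 hc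
    have hAB : (q : ℤ) ∣ P.a ^ P.p * P.b ^ P.p := by
      have e : (P.a ^ P.p) ^ 2 + P.a ^ P.p * P.b ^ P.p + (P.b ^ P.p) ^ 2
          = P.c ^ P.p * (P.a ^ P.p + P.b ^ P.p) - P.a ^ P.p * P.b ^ P.p := by
        rw [← P.hFLT]; ring
      rw [e] at h4
      have h5 : (q : ℤ) ∣ P.c ^ P.p * (P.a ^ P.p + P.b ^ P.p) := Dvd.dvd.mul_right hC _
      exact (dvd_sub_right h5).1 h4
    have hgca : gcd P.c P.a = 1 := by rw [gcd_comm]; exact P.hgcdac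
    have hgcb : gcd P.c P.b = 1 := by rw [gcd_comm]; exact P.hgcdbc
    rcases hqp.dvd_or_dvd hAB with hA | hB
    · exact not_dvd_of_gcd_eq_one hq hgca hc ((dvd_pow_iff P hq _).1 hA)
    · exact not_dvd_of_gcd_eq_one hq hgcb hc ((dvd_pow_iff P hq _).1 hB)

theorem isSemistableModel : P.freyCurveInt.IsSemistableModel :=
  fun _ hq hΔ => not_dvd_c₄_of_dvd_abc P hq (dvd_abc_of_dvd_Δ P hq hΔ)

/-! ### Conductor levels -/

theorem isConductorLevel_of_forall_dvd {N : ℕ} (hpos : 0 < N) (hsq : Squarefree N)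
    (h : ∀ q : ℕ, q.Prime → q ∣ N → (q : ℤ) ∣ P.freyCurveInt.Δ) : P.IsConductorLevel N :=
  ⟨hpos, hsq, fun q hq hqN => dvd_abc_of_dvd_Δ P hq (h q hq hqN)⟩

theorem isConductorLevel_conductorLevel : P.IsConductorLevel P.freyCurveInt.conductorLevel :=
  isConductorLevel_of_forall_dvd P (conductorLevel_pos _) (squarefree_conductorLevel _)
    fun _ hq hqN => (prime_dvd_conductorLevel_iff _ (Δ_ne_zero P) hq).1 hqN

theorem two_dvd_conductorLevel : 2 ∣ P.freyCurveInt.conductorLevel :=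
  (prime_dvd_conductorLevel_iff _ (Δ_ne_zero P) Nat.prime_two).2 (two_dvd_Δ P)

end Fermat.Agent.Frey.IntModel
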