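/-
Wiring for statement S06 (`FreyPackage.modularRepOfConductorLevel`): the mod-`p` representation of the
Frey curve is modular of a conductor level as soon as the integral Frey model `freyCurveInt` is modular
(or only residually modular at `P.p`) of a level all of whose prime factors are bad primes.

No deep input here: the deep input is the hypothesis (modularity of the semistable curve `freyCurveInt`
at its exact conductor level).
-/
import Fermat.Agent.Frey.IntModel
import Fermat.Prelude.Def_FLTPrelim_ModularRep
import Fermat.Prelude.Def_WeierstrassCurve_Mlc1RowStatement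

set_option autoImplicit false

namespace Fermat.Agent.Frey.S06Wiring

open WeierstrassCurve Fermat.Agent.Frey.IntModel

variable (P : FreyPackage)

/-- Residual modularity at `P.p` of any integral model of the Frey curve is `ModularRepOfLevel`. -/
theorem modularRepOfLevel_of_isResiduallyModularOfLevel {N : ℕ} {W : WeierstrassCurve ℤ}
    (hW : W.IsIntegralModelOf P.freyCurve) (h : W.IsResiduallyModularOfLevel P.p N) :
    P.ModularRepOfLevel N := by
  obtain ⟨f, 𝔪, hf, h𝔪, hp𝔪, hcong⟩ := h
  exact ⟨f, W, 𝔪, hf, hW, h𝔪, hp𝔪, hcong⟩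

/-- Modularity of level `N` implies residual modularity of level `N` at every prime. -/
theorem isResiduallyModularOfLevel_of_isModularModelOfLevel {W : WeierstrassCurve ℤ} {N p : ℕ}
    (hp : p.Prime) (h : W.IsModularModelOfLevel N) : W.IsResiduallyModularOfLevel p N := by
  obtain ⟨f, hf, hcoef⟩ := h
  obtain ⟨𝔪, h𝔪, hp𝔪⟩ := FLTPrelim.exists_maximalIdeal_natCast_prime_mem hp
  refine ⟨f, 𝔪, hf, h𝔪, hp𝔪, fun ℓ hℓ hgood hℓN _ =>
    ⟨((W.apOfModel ℓ : ℤ) : integralClosure ℤ ℂ), ?_, ?_⟩⟩
  · rw [hcoef ℓ hℓ hgood hℓN]; simp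
  · simp

theorem modularRepOfLevel_of_isModularModelOfLevel {N : ℕ} {W : WeierstrassCurve ℤ}
    (hW : W.IsIntegralModelOf P.freyCurve) (h : W.IsModularModelOfLevel N) :
    P.ModularRepOfLevel N :=
  modularRepOfLevel_of_isResiduallyModularOfLevel P hW
    (isResiduallyModularOfLevel_of_isModularModelOfLevel P.pp h)

/-- S06 from: `freyCurveInt` is modular of its conductor level `rad Δ` (the conclusion of S58). -/
theorem s06_of_conductorLevel
    (h : P.freyCurveInt.IsModularModelOfLevel P.freyCurveInt.conductorLevel) :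
    ∃ N : ℕ, P.IsConductorLevel N ∧ P.ModularRepOfLevel N :=
  ⟨_, isConductorLevel_conductorLevel P,
    modularRepOfLevel_of_isModularModelOfLevel P (isIntegralModelOf P) h⟩

/-- S06 from: `freyCurveInt` is modular of exact conductor level (the conclusion of S59). -/
theorem s06_of_mlc1 (h : Mlc1IsModularModelOfExactConductorLevel P.freyCurveInt) :
    ∃ N : ℕ, P.IsConductorLevel N ∧ P.ModularRepOfLevel N := by
  obtain ⟨N, hpos, hsq, hiff, hmod⟩ := h
  exact ⟨N, isConductorLevel_of_forall_dvd P hpos hsq fun q hq hqN => (hiff q hq).1 hqN,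
    modularRepOfLevel_of_isModularModelOfLevel P (isIntegralModelOf P) hmod⟩

/-- S06 from: `freyCurveInt` is residually modular at `P.p` of a squarefree level supported on the
bad primes. -/
theorem s06_of_residual {N : ℕ} (hpos : 0 < N) (hsq : Squarefree N)
    (hsupp : ∀ q : ℕ, q.Prime → q ∣ N → (q : ℤ) ∣ P.freyCurveInt.Δ)
    (h : P.freyCurveInt.IsResiduallyModularOfLevel P.p N) :
    ∃ N : ℕ, P.IsConductorLevel N ∧ P.ModularRepOfLevel N :=
  ⟨N, isConductorLevel_of_forall_dvd P hpos hsq hsupp,
    modularRepOfLevel_of_isResiduallyModularOfLevel P (isIntegralModelOf P) h⟩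

/-- S06 from the modularity-lifting row statement at exact conductor level for all semistable curves. -/
theorem s06_of_forall_mlc1
    (h : ∀ W : WeierstrassCurve ℤ, W.Δ ≠ 0 → W.IsSemistableModel →
      Mlc1IsModularModelOfExactConductorLevel W) :
    ∃ N : ℕ, P.IsConductorLevel N ∧ P.ModularRepOfLevel N :=
  s06_of_mlc1 P (h _ (Δ_ne_zero P) (isSemistableModel P))

end Fermat.Agent.Frey.S06Wiring
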